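import Fermat.Agent.S17.TP.AbsDefs
import Fermat.Agent.S17.TP.Zariski
import Fermat.Agent.S17.Tools.MinorsCompl
import Fermat.Agent.S17.Tools.MinorsRank

/-!
# S17 / TP : skeleton of block PL (dual Pluecker linear algebra) and of the ABSTRACT height lemmas
(M), (Ale), (Age).   Final files: `TP/PL*.lean`, `TP/AbsM.lean`, `TP/AbsY.lean`, `TP/AbsA.lean`.
-/

set_option autoImplicit false

noncomputable section

namespace Fermat.Agent.S17.TP

open Fermat.Agent.S17 Matrix Module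

/-! ## PL1-PL3 : identities over a commutative ring (file TP/PLIdent.lean) -/
section Ring
variable {R : Type} [CommRing R] {n d : ℕ}

theorem kerVec_eq_kerVecP (A : Matrix (Fin n) (Fin d) R) (T : Fin (n + 1) ↪o Fin d) :
    kerVec A T = kerVecP (minors A) T := sorry

/-- PL2 (Laplace along the top row): flags are a tautology in the dual formalism. -/
theorem minors_consRow (l : Fin d → R) (A : Matrix (Fin n) (Fin d) R) (T : Fin (n + 1) ↪o Fin d) :
    minors (consRow l A) T = l ⬝ᵥ kerVec A T := sorry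

/-- PL3a. -/
theorem contr_minors (A' : Matrix (Fin (n + 1)) (Fin d) R) (x : Fin d → R) (S : Fin n ↪o Fin d) :
    contr (minors A') x S =
      (Matrix.of fun (r : Fin (n + 1)) (j : Fin (n + 1)) =>
        (Fin.cons ((A' *ᵥ x) r) (fun k => A' r (S k)) : Fin (n + 1) → R) j).det := sorry

/-- PL3b. -/
theorem contr_minors_consRow (l : Fin d → R) (A : Matrix (Fin n) (Fin d) R) (x : Fin d → R)
    (hx : A *ᵥ x = 0) : contr (minors (consRow l A)) x = (l ⬝ᵥ x) • minors A := sorry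

theorem kerVecP_add (p q : (Fin n ↪o Fin d) → R) (T : Fin (n + 1) ↪o Fin d) :
    kerVecP (p + q) T = kerVecP p T + kerVecP q T := sorry
theorem kerVecP_smul (c : R) (p : (Fin n ↪o Fin d) → R) (T : Fin (n + 1) ↪o Fin d) :
    kerVecP (c • p) T = c • kerVecP p T := sorry
theorem contr_smul_left (c : R) (p : (Fin (n + 1) ↪o Fin d) → R) (x : Fin d → R) :
    contr (c • p) x = c • contr p x := sorry
theorem contr_smul_right (c : R) (p : (Fin (n + 1) ↪o Fin d) → R) (x : Fin d → R) :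
    contr p (c • x) = c • contr p x := sorry
theorem contr_add_right (p : (Fin (n + 1) ↪o Fin d) → R) (x y : Fin d → R) :
    contr p (x + y) = contr p x + contr p y := sorry

/-- PL7 (general Cauchy-Binet). -/
theorem compound_mul (w : ℕ) {a b c : ℕ} (M : Matrix (Fin a) (Fin b) R)
    (N : Matrix (Fin b) (Fin c) R) : compound w (M * N) = compound w M * compound w N := sorry
theorem compound_one (w a : ℕ) : compound w (1 : Matrix (Fin a) (Fin a) R) = 1 := sorry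
theorem minors_mul_eq_vecMul_compound {w a b : ℕ} (B : Matrix (Fin w) (Fin a) R)
    (M : Matrix (Fin a) (Fin b) R) : minors (B * M) = minors B ᵥ* compound w M := sorry

end Ring

/-! ## PL4-PL6 : over a field (files TP/PLDim.lean, TP/PLHsub.lean) -/
section Field
variable {K : Type} [Field K] {n d : ℕ}

/-- PL4. -/
theorem le_finrank_span_kerVecP (p : (Fin n ↪o Fin d) → K) (hp : p ≠ 0) :
    d ≤ finrank K (Submodule.span K (Set.range (kerVecP p))) + n := sorry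

/-- PL5. -/
theorem finrank_contr_eq_zero_le (p' : (Fin (n + 1) ↪o Fin d) → K) (hp : p' ≠ 0)
    (U : Submodule K (Fin d → K)) (hU : ∀ x ∈ U, contr p' x = 0) :
    finrank K U + (n + 1) ≤ d := sorry

theorem exists_isCut (U : Submodule K (Fin d → K)) :
    ∃ (r : ℕ) (A : Matrix (Fin r) (Fin d) K), IsCut A U := sorry

theorem IsCut.finrank_add {r : ℕ} {A : Matrix (Fin r) (Fin d) K} {U : Submodule K (Fin d → K)}
    (h : IsCut A U) : finrank K U + r = d := sorry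

theorem IsCut.minors_ne_zero {r : ℕ} {A : Matrix (Fin r) (Fin d) K} {U : Submodule K (Fin d → K)}
    (h : IsCut A U) : minors A ≠ 0 := sorry

theorem IsCut.span_kerVecP {r : ℕ} {A : Matrix (Fin r) (Fin d) K} {U : Submodule K (Fin d → K)}
    (h : IsCut A U) : Submodule.span K (Set.range (kerVecP (minors A))) = U := sorry

theorem IsCut.exists_smul {r : ℕ} {A A' : Matrix (Fin r) (Fin d) K} {U : Submodule K (Fin d → K)}
    (h : IsCut A U) (h' : IsCut A' U) : ∃ c : K, c ≠ 0 ∧ minors A' = c • minors A := sorry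

/-- a hyperplane `U'` of `U` is cut out by one more row -/
theorem IsCut.exists_consRow {r : ℕ} {A : Matrix (Fin r) (Fin d) K} {U U' : Submodule K (Fin d → K)}
    (h : IsCut A U) (hle : U' ≤ U) (hfr : finrank K U' + 1 = finrank K U) :
    ∃ l : Fin d → K, IsCut (consRow l A) U' := sorry

theorem Hsub_eq (H : HeightFn K) {r : ℕ} {A : Matrix (Fin r) (Fin d) K}
    {U : Submodule K (Fin d → K)} (h : IsCut A U) : Hsub H U = H.h (minors A) := sorry

theorem Hsub_nonneg (H : HeightFn K) (U : Submodule K (Fin d → K)) : 0 ≤ Hsub H U := sorry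

theorem Hsub_top (H : HeightFn K) : Hsub H (⊤ : Submodule K (Fin d → K)) = 0 := sorry

/-- primal Pluecker vector (rows of `B` = a basis of `U`) has the same height -/
theorem Hsub_eq_primal (H : HeightFn K) {w : ℕ} (B : Matrix (Fin w) (Fin d) K)
    (hB : LinearIndependent K B.row) : Hsub H (Submodule.span K (Set.range B.row)) = H.h (minors B) :=
  sorry

/-- (N1) -/
theorem Hsub_span_singleton (H : HeightFn K) (s : Fin d → K) (hs : s ≠ 0) :
    Hsub H (K ∙ s) = H.h s := sorry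

/-- the hyperplane `ker l` -/
theorem Hsub_ker_dotProduct (H : HeightFn K) (l : Fin d → K) (hl : l ≠ 0)
    (U : Submodule K (Fin d → K)) (hU : ∀ x, x ∈ U ↔ l ⬝ᵥ x = 0) : Hsub H U = H.h l := sorry

end Field

/-! ## abstract height lemmas -/
section Abs
variable {K : Type} [Field K] [IsAlgClosed K] (H : HeightFn K) {a b c : ℕ}
  (μ : (Fin a → K) →ₗ[K] (Fin b → K) →ₗ[K] (Fin c → K))

/-- **(M) abstract** (file TP/AbsM.lean). -/
theorem abs_M (hμ : ∀ x t, μ x t = 0 → x = 0 ∨ t = 0) :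
    ∃ C : ℝ, ∀ (U : Submodule K (Fin a → K)) (t : Fin b → K), t ≠ 0 →
      |Hsub H (U.map (μ.flip t)) - Hsub H U - finrank K U * H.h t| ≤ C := sorry

/-- **Lemma Y** (file TP/AbsY.lean). -/
theorem lemma_Y {r₁ r₂ r₃ : ℕ} {U₁ U₁' : Submodule K (Fin a → K)} {U₂ U₂' : Submodule K (Fin b → K)}
    {U₃ U₃' : Submodule K (Fin c → K)} (hY : YData μ U₁ U₁' U₂ U₂' U₃ U₃')
    {A₁ : Matrix (Fin r₁) (Fin a) K} {A₂ : Matrix (Fin r₂) (Fin b) K} {A₃ : Matrix (Fin r₃) (Fin c) K}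
    {l₁ : Fin a → K} {l₂ : Fin b → K} {l₃ : Fin c → K}
    (h₁ : IsCut A₁ U₁) (h₂ : IsCut A₂ U₂) (h₃ : IsCut A₃ U₃)
    (h₁' : IsCut (consRow l₁ A₁) U₁') (h₂' : IsCut (consRow l₂ A₂) U₂')
    (h₃' : IsCut (consRow l₃ A₃) U₃') :
    ∃ κ : K, κ ≠ 0 ∧ Ymap μ (minors (consRow l₃ A₃)) (minors A₁) (minors A₂) =
      fun I => κ * (minors (consRow l₁ A₁) I.1 * (minors (consRow l₂ A₂) I.2.1 * minors A₃ I.2.2)) :=
  sorry

/-- **(Ale) abstract** (file TP/AbsA.lean): upper bound, no closed sets. -/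
theorem abs_A_le :
    ∃ C : ℝ, ∀ (U₁ U₁' : Submodule K (Fin a → K)) (U₂ U₂' : Submodule K (Fin b → K))
      (U₃ U₃' : Submodule K (Fin c → K)), YData μ U₁ U₁' U₂ U₂' U₃ U₃' →
      Hsub H U₁' + Hsub H U₂' + Hsub H U₃ ≤ Hsub H U₃' + Hsub H U₁ + Hsub H U₂ + C := sorry

/-- **(Age) abstract** (file TP/AbsA.lean): lower bound on closed cones `Z₁`, `Z₂`. -/
theorem abs_A_ge {r₁ r₂ r₃ : ℕ} (Z₁ : Set ((Fin r₁ ↪o Fin a) → K)) (Z₂ : Set ((Fin r₂ ↪o Fin b) → K))
    (hZ₁ : IsZClosed Z₁) (hZ₂ : IsZClosed Z₂) (hc₁ : IsCone Z₁) (hc₂ : IsCone Z₂)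
    (hbig : ∀ p₁ ∈ Z₁, ∀ p₂ ∈ Z₂, p₁ ≠ 0 → p₂ ≠ 0 →
      c ≤ finrank K (mulSpan μ (Submodule.span K (Set.range (kerVecP p₁)))
        (Submodule.span K (Set.range (kerVecP p₂)))) + r₃) :
    ∃ C : ℝ, ∀ (U₁ U₁' : Submodule K (Fin a → K)) (U₂ U₂' : Submodule K (Fin b → K))
      (U₃ U₃' : Submodule K (Fin c → K)), YData μ U₁ U₁' U₂ U₂' U₃ U₃' →
      ∀ (A₁ : Matrix (Fin r₁) (Fin a) K) (A₂ : Matrix (Fin r₂) (Fin b) K), IsCut A₁ U₁ → IsCut A₂ U₂ →
      minors A₁ ∈ Z₁ → minors A₂ ∈ Z₂ → finrank K U₃ + r₃ = c →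
      Hsub H U₃' + Hsub H U₁ + Hsub H U₂ ≤ Hsub H U₁' + Hsub H U₂' + Hsub H U₃ + C := sorry

theorem isZClosed_Zcone {r e f : ℕ} (ν : (Fin a → K) →ₗ[K] (Fin e → K) →ₗ[K] (Fin f → K)) (D : ℕ) :
    IsZClosed (Zcone (r := r) ν D) := sorry

theorem isCone_Zcone {r e f : ℕ} (ν : (Fin a → K) →ₗ[K] (Fin e → K) →ₗ[K] (Fin f → K)) (D : ℕ) :
    IsCone (Zcone (r := r) ν D) := sorry

end Abs

end Fermat.Agent.S17.TP
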