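import Fermat.Agent.S17.TP.Height
import Fermat.Agent.S17.TP.Zariski

/-!
# S17 / TP : skeleton of block TP (statements; final files: `TP/PolyFun.lean`, `TP/Main.lean`, `TP/Three.lean`)
-/

set_option autoImplicit false

namespace Fermat.Agent.S17.TP

variable {K : Type} [Field K]

/-! ## PolyFun API (file TP/PolyFun.lean) -/
section PolyFun
variable {σ : Type}

theorem IsPolyFun.const (a : K) : IsPolyFun (fun _ : σ → K => a) := sorry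
theorem IsPolyFun.coord (s : σ) : IsPolyFun (fun x : σ → K => x s) := sorry
theorem IsPolyFun.add {f g : (σ → K) → K} (hf : IsPolyFun f) (hg : IsPolyFun g) :
    IsPolyFun (fun x => f x + g x) := sorry
theorem IsPolyFun.neg {f : (σ → K) → K} (hf : IsPolyFun f) : IsPolyFun (fun x => - f x) := sorry
theorem IsPolyFun.sub {f g : (σ → K) → K} (hf : IsPolyFun f) (hg : IsPolyFun g) :
    IsPolyFun (fun x => f x - g x) := sorry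
theorem IsPolyFun.mul {f g : (σ → K) → K} (hf : IsPolyFun f) (hg : IsPolyFun g) :
    IsPolyFun (fun x => f x * g x) := sorry
theorem IsPolyFun.pow {f : (σ → K) → K} (hf : IsPolyFun f) (n : ℕ) :
    IsPolyFun (fun x => f x ^ n) := sorry
theorem IsPolyFun.sum {α : Type} (s : Finset α) {f : α → (σ → K) → K}
    (hf : ∀ a ∈ s, IsPolyFun (f a)) : IsPolyFun (fun x => ∑ a ∈ s, f a x) := sorry
theorem IsPolyFun.prod {α : Type} (s : Finset α) {f : α → (σ → K) → K}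
    (hf : ∀ a ∈ s, IsPolyFun (f a)) : IsPolyFun (fun x => ∏ a ∈ s, f a x) := sorry
theorem IsPolyFun.ite {p : Prop} [Decidable p] {f g : (σ → K) → K} (hf : IsPolyFun f)
    (hg : IsPolyFun g) : IsPolyFun (fun x => if p then f x else g x) := sorry
theorem IsPolyFun.det {n : Type} [Fintype n] [DecidableEq n] {M : (σ → K) → Matrix n n K}
    (hM : ∀ i j, IsPolyFun (fun x => M x i j)) : IsPolyFun (fun x => (M x).det) := sorry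
/-- composition with a polynomial map -/
theorem IsPolyFun.comp {σ' : Type} {f : (σ' → K) → K} (hf : IsPolyFun f)
    {g : (σ → K) → σ' → K} (hg : ∀ s, IsPolyFun (fun x => g x s)) :
    IsPolyFun (fun x => f (g x)) := sorry

theorem IsZClosed.univ : IsZClosed (Set.univ : Set (σ → K)) := sorry
theorem IsZClosed.inter {Z Z' : Set (σ → K)} (h : IsZClosed Z) (h' : IsZClosed Z') :
    IsZClosed (Z ∩ Z') := sorry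
theorem IsZClosed.setOf_eq_zero {α : Type} {f : α → (σ → K) → K} (hf : ∀ a, IsPolyFun (f a)) :
    IsZClosed {x | ∀ a, f a x = 0} := sorry
theorem IsZClosed.preimage {σ' : Type} {Z : Set (σ' → K)} (h : IsZClosed Z)
    {g : (σ → K) → σ' → K} (hg : ∀ s, IsPolyFun (fun x => g x s)) : IsZClosed (g ⁻¹' Z) := sorry
/-- determinantal sets are closed -/
theorem IsZClosed.rank_le {m n : Type} [Fintype m] [Fintype n] {M : (σ → K) → Matrix m n K}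
    (hM : ∀ i j, IsPolyFun (fun x => M x i j)) (D : ℕ) : IsZClosed {x | (M x).rank ≤ D} := sorry

end PolyFun

/-! ## the main lemma (file TP/Main.lean) -/

/-- TP, upper bound (no closed set needed). -/
theorem TP_upper (H : HeightFn K) [Infinite K] {σ κ τ : Type} [Fintype σ] [Fintype κ] [Fintype τ]
    (b : σ → κ) (d : κ → ℕ) (Φ : (σ → K) → τ → K) (hΦ : ∀ t, IsPolyFun (fun x => Φ x t))
    (hhom : ∀ c x, Φ (blockSMul b c x) = (∏ k, c k ^ d k) • Φ x) :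
    ∃ C : ℝ, ∀ x, (∀ k, block b x k ≠ 0) → H.h (Φ x) ≤ ∑ k, d k * H.h (block b x k) + C := sorry

/-- **TP**, lower bound. -/
theorem TP_lower (H : HeightFn K) [IsAlgClosed K] {σ κ τ : Type} [Fintype σ] [Fintype κ]
    [Fintype τ] (b : σ → κ) (d : κ → ℕ) (Φ : (σ → K) → τ → K)
    (hΦ : ∀ t, IsPolyFun (fun x => Φ x t))
    (hhom : ∀ c x, Φ (blockSMul b c x) = (∏ k, c k ^ d k) • Φ x)
    (Z : Set (σ → K)) (hZ : IsZClosed Z) (hcone : ∀ c x, x ∈ Z → blockSMul b c x ∈ Z)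
    (hne : ∀ x ∈ Z, (∀ k, block b x k ≠ 0) → Φ x ≠ 0) :
    ∃ C : ℝ, ∀ x ∈ Z, (∀ k, block b x k ≠ 0) →
      ∑ k, d k * H.h (block b x k) ≤ H.h (Φ x) + C := sorry

/-! ## user versions (file TP/Three.lean) -/

theorem TP3_upper (H : HeightFn K) [Infinite K] {ι₁ ι₂ ι₃ τ : Type} [Fintype ι₁] [Fintype ι₂]
    [Fintype ι₃] [Fintype τ] (Φ : (ι₁ → K) → (ι₂ → K) → (ι₃ → K) → τ → K)
    (hΦ : ∀ t, IsPolyFun (fun x : ι₁ ⊕ ι₂ ⊕ ι₃ → K =>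
      Φ (fun i => x (.inl i)) (fun i => x (.inr (.inl i))) (fun i => x (.inr (.inr i))) t))
    (d₁ d₂ d₃ : ℕ)
    (hhom : ∀ (c₁ c₂ c₃ : K) x₁ x₂ x₃,
      Φ (c₁ • x₁) (c₂ • x₂) (c₃ • x₃) = (c₁ ^ d₁ * c₂ ^ d₂ * c₃ ^ d₃) • Φ x₁ x₂ x₃) :
    ∃ C : ℝ, ∀ x₁ x₂ x₃, x₁ ≠ 0 → x₂ ≠ 0 → x₃ ≠ 0 →
      H.h (Φ x₁ x₂ x₃) ≤ d₁ * H.h x₁ + d₂ * H.h x₂ + d₃ * H.h x₃ + C := sorry

theorem TP3_lower (H : HeightFn K) [IsAlgClosed K] {ι₁ ι₂ ι₃ τ : Type} [Fintype ι₁] [Fintype ι₂]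
    [Fintype ι₃] [Fintype τ] (Φ : (ι₁ → K) → (ι₂ → K) → (ι₃ → K) → τ → K)
    (hΦ : ∀ t, IsPolyFun (fun x : ι₁ ⊕ ι₂ ⊕ ι₃ → K =>
      Φ (fun i => x (.inl i)) (fun i => x (.inr (.inl i))) (fun i => x (.inr (.inr i))) t))
    (d₁ d₂ d₃ : ℕ)
    (hhom : ∀ (c₁ c₂ c₃ : K) x₁ x₂ x₃,
      Φ (c₁ • x₁) (c₂ • x₂) (c₃ • x₃) = (c₁ ^ d₁ * c₂ ^ d₂ * c₃ ^ d₃) • Φ x₁ x₂ x₃)
    (Z₁ : Set (ι₁ → K)) (Z₂ : Set (ι₂ → K)) (Z₃ : Set (ι₃ → K))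
    (h₁ : IsZClosed Z₁) (h₂ : IsZClosed Z₂) (h₃ : IsZClosed Z₃)
    (c₁ : IsCone Z₁) (c₂ : IsCone Z₂) (c₃ : IsCone Z₃)
    (hne : ∀ x₁ ∈ Z₁, ∀ x₂ ∈ Z₂, ∀ x₃ ∈ Z₃, x₁ ≠ 0 → x₂ ≠ 0 → x₃ ≠ 0 → Φ x₁ x₂ x₃ ≠ 0) :
    ∃ C : ℝ, ∀ x₁ ∈ Z₁, ∀ x₂ ∈ Z₂, ∀ x₃ ∈ Z₃, x₁ ≠ 0 → x₂ ≠ 0 → x₃ ≠ 0 →
      d₁ * H.h x₁ + d₂ * H.h x₂ + d₃ * H.h x₃ ≤ H.h (Φ x₁ x₂ x₃) + C := sorry

theorem TP2_upper (H : HeightFn K) [Infinite K] {ι₁ ι₂ τ : Type} [Fintype ι₁] [Fintype ι₂]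
    [Fintype τ] (Φ : (ι₁ → K) → (ι₂ → K) → τ → K)
    (hΦ : ∀ t, IsPolyFun (fun x : ι₁ ⊕ ι₂ → K => Φ (fun i => x (.inl i)) (fun i => x (.inr i)) t))
    (d₁ d₂ : ℕ)
    (hhom : ∀ (c₁ c₂ : K) x₁ x₂, Φ (c₁ • x₁) (c₂ • x₂) = (c₁ ^ d₁ * c₂ ^ d₂) • Φ x₁ x₂) :
    ∃ C : ℝ, ∀ x₁ x₂, x₁ ≠ 0 → x₂ ≠ 0 →
      H.h (Φ x₁ x₂) ≤ d₁ * H.h x₁ + d₂ * H.h x₂ + C := sorry

theorem TP2_lower (H : HeightFn K) [IsAlgClosed K] {ι₁ ι₂ τ : Type} [Fintype ι₁] [Fintype ι₂]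
    [Fintype τ] (Φ : (ι₁ → K) → (ι₂ → K) → τ → K)
    (hΦ : ∀ t, IsPolyFun (fun x : ι₁ ⊕ ι₂ → K => Φ (fun i => x (.inl i)) (fun i => x (.inr i)) t))
    (d₁ d₂ : ℕ)
    (hhom : ∀ (c₁ c₂ : K) x₁ x₂, Φ (c₁ • x₁) (c₂ • x₂) = (c₁ ^ d₁ * c₂ ^ d₂) • Φ x₁ x₂)
    (Z₁ : Set (ι₁ → K)) (Z₂ : Set (ι₂ → K)) (h₁ : IsZClosed Z₁) (h₂ : IsZClosed Z₂)
    (c₁ : IsCone Z₁) (c₂ : IsCone Z₂)
    (hne : ∀ x₁ ∈ Z₁, ∀ x₂ ∈ Z₂, x₁ ≠ 0 → x₂ ≠ 0 → Φ x₁ x₂ ≠ 0) :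
    ∃ C : ℝ, ∀ x₁ ∈ Z₁, ∀ x₂ ∈ Z₂, x₁ ≠ 0 → x₂ ≠ 0 →
      d₁ * H.h x₁ + d₂ * H.h x₂ ≤ H.h (Φ x₁ x₂) + C := sorry

/-- an injective linear map changes the height by a bounded amount -/
theorem TP_linear_injective (H : HeightFn K) {ι ι' : Type} [Fintype ι] [Fintype ι']
    (A : ι' → ι → K) (hA : Function.Injective (fun (x : ι → K) (j : ι') => ∑ i, A j i * x i)) :
    ∃ C : ℝ, ∀ x : ι → K, |H.h (fun j => ∑ i, A j i * x i) - H.h x| ≤ C := sorry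

end Fermat.Agent.S17.TP
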